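import Mathlib.NumberTheory.Modular
import Mathlib.NumberTheory.ModularForms.CongruenceSubgroups
import Fermat.Prelude.Def_ModularCurve_GenusNumerics

/-!
Elliptic fixed points of `S` and `ST` on `SL(2,ℤ) ⧸ Γ₀(N)`.
-/

set_option autoImplicit false

open CongruenceSubgroup Matrix
open scoped MatrixGroups

namespace Fermat.Agent.Gamma0Count

/-- The finite set of left cosets of `Γ₀(N)`, with its left action of `SL(2,ℤ)`. -/
abbrev CosetSpace (N : ℕ) : Type := SL(2, ℤ) ⧸ Gamma0 N

variable {N : ℕ}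

noncomputable instance instFintypeCosetSpace [NeZero N] : Fintype (CosetSpace N) :=
  Subgroup.fintypeQuotientOfFiniteIndex

lemma coset_eq_iff (g h : SL(2, ℤ)) :
    (g : CosetSpace N) = (h : CosetSpace N) ↔
      ((g 0 0 : ℤ) : ZMod N) * (h 1 0 : ℤ) = ((g 1 0 : ℤ) : ZMod N) * (h 0 0 : ℤ) := by
  rw [QuotientGroup.eq, Gamma0_mem, Matrix.SpecialLinearGroup.coe_mul,
    Matrix.SpecialLinearGroup.coe_inv, Matrix.adjugate_fin_two, Matrix.mul_apply, Fin.sum_univ_two]
  simp only [Matrix.cons_val', Matrix.cons_val_zero, Matrix.cons_val_one, Matrix.of_apply,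
    Matrix.cons_val_fin_one]
  push_cast
  constructor <;> intro H <;> linear_combination H

lemma det_cast (g : SL(2, ℤ)) :
    ((g 0 0 : ℤ) : ZMod N) * (g 1 1 : ℤ) - ((g 0 1 : ℤ) : ZMod N) * (g 1 0 : ℤ) = 1 := by
  have h := g.det_coe
  rw [Matrix.det_fin_two] at h
  exact_mod_cast congrArg (Int.cast : ℤ → ZMod N) h

/-- The matrix `(x, -1; 1, 0)`. -/
def slashMat (x : ℤ) : SL(2, ℤ) := ⟨!![x, -1; 1, 0], by simp [Matrix.det_fin_two_of]⟩

@[simp] lemma slashMat_apply_zero_zero (x : ℤ) : slashMat x 0 0 = x := rfl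
@[simp] lemma slashMat_apply_one_zero (x : ℤ) : slashMat x 1 0 = 1 := rfl

lemma S_mul_apply_zero_zero (g : SL(2, ℤ)) : (ModularGroup.S * g) 0 0 = -g 1 0 := by
  rw [Matrix.SpecialLinearGroup.coe_mul, Matrix.mul_apply, Fin.sum_univ_two]; simp [ModularGroup.S]

lemma S_mul_apply_one_zero (g : SL(2, ℤ)) : (ModularGroup.S * g) 1 0 = g 0 0 := by
  rw [Matrix.SpecialLinearGroup.coe_mul, Matrix.mul_apply, Fin.sum_univ_two]; simp [ModularGroup.S]

lemma ST_mul_apply_zero_zero (g : SL(2, ℤ)) :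
    (ModularGroup.S * ModularGroup.T * g) 0 0 = -g 1 0 := by
  rw [Matrix.SpecialLinearGroup.coe_mul, Matrix.SpecialLinearGroup.coe_mul, Matrix.mul_apply,
    Fin.sum_univ_two]; simp [ModularGroup.S, ModularGroup.T, Matrix.mul_apply, Fin.sum_univ_two]

lemma ST_mul_apply_one_zero (g : SL(2, ℤ)) :
    (ModularGroup.S * ModularGroup.T * g) 1 0 = g 0 0 + g 1 0 := by
  rw [Matrix.SpecialLinearGroup.coe_mul, Matrix.SpecialLinearGroup.coe_mul, Matrix.mul_apply,
    Fin.sum_univ_two]; simp [ModularGroup.S, ModularGroup.T, Matrix.mul_apply, Fin.sum_univ_two]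

lemma S_smul_eq_self_iff (g : SL(2, ℤ)) :
    ModularGroup.S • (g : CosetSpace N) = (g : CosetSpace N) ↔
      ((g 0 0 : ℤ) : ZMod N) ^ 2 + ((g 1 0 : ℤ) : ZMod N) ^ 2 = 0 := by
  rw [MulAction.Quotient.smul_coe, smul_eq_mul, coset_eq_iff, S_mul_apply_zero_zero,
    S_mul_apply_one_zero]
  push_cast
  constructor <;> intro H <;> linear_combination -H

lemma ST_smul_eq_self_iff (g : SL(2, ℤ)) :
    (ModularGroup.S * ModularGroup.T) • (g : CosetSpace N) = (g : CosetSpace N) ↔
      ((g 0 0 : ℤ) : ZMod N) ^ 2 + ((g 0 0 : ℤ) : ZMod N) * (g 1 0 : ℤ) +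
        ((g 1 0 : ℤ) : ZMod N) ^ 2 = 0 := by
  rw [MulAction.Quotient.smul_coe, smul_eq_mul, coset_eq_iff, ST_mul_apply_zero_zero,
    ST_mul_apply_one_zero]
  push_cast
  constructor <;> intro H <;> linear_combination -H

/-- The number of cosets fixed by `S` is `ν₂(N)`. -/
theorem card_fixedBy_S (N : ℕ) :
    Nat.card {x : CosetSpace N // ModularGroup.S • x = x} = ModularCurve.nuTwo N := by
  rw [ModularCurve.nuTwo]
  symm
  choose lift hlift using ZMod.intCast_surjective (n := N)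
  refine Nat.card_congr (Equiv.ofBijective
    (fun x => ⟨(slashMat (lift x.1) : CosetSpace N), ?_⟩) ⟨?_, ?_⟩)
  · rw [S_smul_eq_self_iff, slashMat_apply_zero_zero, slashMat_apply_one_zero, hlift]
    simpa using x.2
  · rintro ⟨x, hx⟩ ⟨y, hy⟩ h
    have := (coset_eq_iff _ _).mp (congrArg Subtype.val h)
    simp [hlift] at this
    exact Subtype.ext this
  · rintro ⟨q, hq⟩
    obtain ⟨g, rfl⟩ := Quotient.exists_rep q
    have hq' := (S_smul_eq_self_iff (N := N) g).mp hq
    have hd := det_cast (N := N) g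
    set a : ZMod N := ((g 0 0 : ℤ) : ZMod N)
    set b : ZMod N := ((g 0 1 : ℤ) : ZMod N)
    set c : ZMod N := ((g 1 0 : ℤ) : ZMod N)
    set d : ZMod N := ((g 1 1 : ℤ) : ZMod N)
    set c' : ZMod N := -(c * d ^ 2 + b * (2 + b * c))
    have hc : c * c' = 1 := by
      linear_combination (-d ^ 2) * hq' + (a * d + b * c + 1) * hd
    refine ⟨⟨a * c', by linear_combination c' ^ 2 * hq' - (c * c' + 1) * hc⟩, Subtype.ext ?_⟩
    refine (coset_eq_iff _ _).mpr ?_
    rw [slashMat_apply_zero_zero, slashMat_apply_one_zero, hlift]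
    push_cast
    linear_combination a * hc

/-- The number of cosets fixed by `ST` is `ν₃(N)`. -/
theorem card_fixedBy_ST (N : ℕ) :
    Nat.card {x : CosetSpace N // (ModularGroup.S * ModularGroup.T) • x = x}
      = ModularCurve.nuThree N := by
  rw [ModularCurve.nuThree]
  symm
  choose lift hlift using ZMod.intCast_surjective (n := N)
  refine Nat.card_congr (Equiv.ofBijective
    (fun x => ⟨(slashMat (lift x.1) : CosetSpace N), ?_⟩) ⟨?_, ?_⟩)
  · rw [ST_smul_eq_self_iff, slashMat_apply_zero_zero, slashMat_apply_one_zero, hlift]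
    simpa using x.2
  · rintro ⟨x, hx⟩ ⟨y, hy⟩ h
    have := (coset_eq_iff _ _).mp (congrArg Subtype.val h)
    simp [hlift] at this
    exact Subtype.ext this
  · rintro ⟨q, hq⟩
    obtain ⟨g, rfl⟩ := Quotient.exists_rep q
    have hq' := (ST_smul_eq_self_iff (N := N) g).mp hq
    have hd := det_cast (N := N) g
    set a : ZMod N := ((g 0 0 : ℤ) : ZMod N)
    set b : ZMod N := ((g 0 1 : ℤ) : ZMod N)
    set c : ZMod N := ((g 1 0 : ℤ) : ZMod N)
    set d : ZMod N := ((g 1 1 : ℤ) : ZMod N)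
    set c' : ZMod N := -(c * d ^ 2 + d * (1 + b * c) + b * (2 + b * c))
    have hc : c * c' = 1 := by
      linear_combination (-d ^ 2) * hq' + (a * d + b * c + 1 + c * d) * hd
    refine ⟨⟨a * c', by linear_combination c' ^ 2 * hq' - (c * c' + 1 + a * c') * hc⟩,
      Subtype.ext ?_⟩
    refine (coset_eq_iff _ _).mpr ?_
    rw [slashMat_apply_zero_zero, slashMat_apply_one_zero, hlift]
    push_cast
    linear_combination a * hc

end Fermat.Agent.Gamma0Count
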