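import Mathlib.NumberTheory.Modular
import Mathlib.GroupTheory.Index
import Mathlib.RingTheory.Coprime.Lemmas
import Mathlib.Data.ZMod.Units
import Fermat.Agent.Gamma0Count.Basic

/-!
The index of `Γ₀(N)` is `dedekindPsi N`.
-/

set_option autoImplicit false

open CongruenceSubgroup Matrix
open scoped MatrixGroups

namespace Fermat.Agent.Gamma0Count

open ModularCurve (dedekindPsi)

lemma Gamma0_le_of_dvd {M N : ℕ} (h : M ∣ N) : Gamma0 N ≤ Gamma0 M := by
  intro g hg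
  rw [Gamma0_mem, ZMod.intCast_zmod_eq_zero_iff_dvd] at hg ⊢
  exact (Int.natCast_dvd_natCast.mpr h).trans hg

section step

variable {N p : ℕ}

/-- The matrix `(1, 0; N j, 1)`. -/
def lowerMat (N : ℕ) (j : ℤ) : Gamma0 N :=
  ⟨⟨!![1, 0; (N : ℤ) * j, 1], by simp [Matrix.det_fin_two_of]⟩, Gamma0_mem.mpr (by simp)⟩

lemma mk_eq_iff_dvd (g h : Gamma0 N) :
    ((g : Gamma0 N ⧸ (Gamma0 (N * p)).subgroupOf (Gamma0 N)) = h) ↔
      ((N * p : ℕ) : ℤ) ∣
        (g : SL(2, ℤ)) 0 0 * (h : SL(2, ℤ)) 1 0 - (g : SL(2, ℤ)) 1 0 * (h : SL(2, ℤ)) 0 0 := by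
  rw [QuotientGroup.eq, Subgroup.mem_subgroupOf]
  push_cast
  rw [← QuotientGroup.eq, coset_eq_iff, ← sub_eq_zero, ← Int.cast_mul, ← Int.cast_mul,
    ← Int.cast_sub, ZMod.intCast_zmod_eq_zero_iff_dvd]
  push_cast
  rfl

lemma mk_lowerMat_eq_iff (hN : N ≠ 0) (j : ℤ) (h : Gamma0 N) {m : ℤ}
    (hm : (h : SL(2, ℤ)) 1 0 = N * m) :
    ((lowerMat N j : Gamma0 N ⧸ (Gamma0 (N * p)).subgroupOf (Gamma0 N)) = h) ↔
      (m : ZMod p) = j * (((h : SL(2, ℤ)) 0 0 : ℤ) : ZMod p) := by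
  rw [mk_eq_iff_dvd, hm]
  show ((N * p : ℕ) : ℤ) ∣ 1 * (N * m) - N * j * (h : SL(2, ℤ)) 0 0 ↔ _
  rw [show (1 * ((N : ℤ) * m) - N * j * (h : SL(2, ℤ)) 0 0) = N * (m - j * (h : SL(2, ℤ)) 0 0) by
    ring, Nat.cast_mul, mul_dvd_mul_iff_left (by exact_mod_cast hN),
    ← ZMod.intCast_zmod_eq_zero_iff_dvd]
  push_cast
  rw [sub_eq_zero]

lemma exists_lower_entry (h : Gamma0 N) : ∃ m : ℤ, (h : SL(2, ℤ)) 1 0 = N * m :=
  (ZMod.intCast_zmod_eq_zero_iff_dvd _ _).mp (Gamma0_mem.mp h.2)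

lemma lowerMat_injective (hN : N ≠ 0) [NeZero p] :
    Function.Injective fun j : ZMod p =>
      (lowerMat N (j.val : ℤ) : Gamma0 N ⧸ (Gamma0 (N * p)).subgroupOf (Gamma0 N)) := by
  intro i j h
  have := (mk_lowerMat_eq_iff hN _ (lowerMat N (j.val : ℤ)) (m := (j.val : ℤ)) rfl).mp h
  simpa [lowerMat] using this.symm

theorem relIndex_mul_of_dvd (hN : N ≠ 0) (hp : p.Prime) (hpN : p ∣ N) :
    (Gamma0 (N * p)).relIndex (Gamma0 N) = p := by
  have : NeZero p := ⟨hp.ne_zero⟩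
  have : Fact p.Prime := ⟨hp⟩
  refine (Nat.card_congr (Equiv.ofBijective _ ⟨lowerMat_injective (p := p) hN, ?_⟩)).symm.trans
    (Nat.card_zmod p)
  intro q
  obtain ⟨h, rfl⟩ := Quotient.exists_rep q
  obtain ⟨m, hm⟩ := exists_lower_entry h
  have ha : (((h : SL(2, ℤ)) 0 0 : ℤ) : ZMod p) ≠ 0 := by
    intro ha
    have hd := det_cast (N := p) (h : SL(2, ℤ))
    have hc : (((h : SL(2, ℤ)) 1 0 : ℤ) : ZMod p) = 0 := by
      rw [hm]
      push_cast
      rw [(ZMod.natCast_eq_zero_iff N p).mpr hpN, zero_mul]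
    simp [ha, hc] at hd
  refine ⟨(m : ZMod p) * (((h : SL(2, ℤ)) 0 0 : ℤ) : ZMod p)⁻¹, ?_⟩
  refine (mk_lowerMat_eq_iff hN _ h hm).mpr ?_
  rw [Int.cast_natCast, ZMod.natCast_zmod_val, mul_assoc, inv_mul_cancel₀ ha, mul_one]

theorem relIndex_mul_of_not_dvd (hN : N ≠ 0) (hp : p.Prime) (hpN : ¬ p ∣ N) :
    (Gamma0 (N * p)).relIndex (Gamma0 N) = p + 1 := by
  have : NeZero p := ⟨hp.ne_zero⟩
  have : Fact p.Prime := ⟨hp⟩
  obtain ⟨x, y, hxy⟩ := Nat.isCoprime_iff_coprime.mpr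
    ((hp.coprime_iff_not_dvd).mpr hpN)
  let w : Gamma0 N := ⟨⟨!![(p : ℤ), -y; (N : ℤ), x], by
    rw [Matrix.det_fin_two_of]; linear_combination hxy⟩, Gamma0_mem.mpr (by simp)⟩
  have hw : ∀ (h : Gamma0 N) (m : ℤ), (h : SL(2, ℤ)) 1 0 = N * m →
      (((w : Gamma0 N ⧸ (Gamma0 (N * p)).subgroupOf (Gamma0 N)) = h) ↔
        (((h : SL(2, ℤ)) 0 0 : ℤ) : ZMod p) = 0) := by
    intro h m hm
    rw [mk_eq_iff_dvd, hm]
    show ((N * p : ℕ) : ℤ) ∣ (p : ℤ) * (N * m) - N * (h : SL(2, ℤ)) 0 0 ↔ _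
    rw [show ((p : ℤ) * ((N : ℤ) * m) - N * (h : SL(2, ℤ)) 0 0)
        = N * (p * m - (h : SL(2, ℤ)) 0 0) by ring, Nat.cast_mul,
      mul_dvd_mul_iff_left (by exact_mod_cast hN), ← ZMod.intCast_zmod_eq_zero_iff_dvd]
    push_cast
    rw [ZMod.natCast_self, zero_mul, zero_sub, neg_eq_zero]
  let F : Option (ZMod p) → Gamma0 N ⧸ (Gamma0 (N * p)).subgroupOf (Gamma0 N) := fun o =>
    o.elim (w : _) fun j => (lowerMat N (j.val : ℤ) : _)
  have hne : ∀ j : ZMod p, F none ≠ F (some j) := by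
    intro j hj
    have := (hw (lowerMat N (j.val : ℤ)) (j.val : ℤ) (by simp [lowerMat])).mp hj
    simp [lowerMat] at this
  have hF : Function.Bijective F := by
    constructor
    · rintro (_ | i) (_ | j) h
      · rfl
      · exact absurd h (hne j)
      · exact absurd h.symm (hne i)
      · exact congrArg some (lowerMat_injective (p := p) hN h)
    · intro q
      obtain ⟨h, rfl⟩ := Quotient.exists_rep q
      obtain ⟨m, hm⟩ := exists_lower_entry h
      by_cases ha : (((h : SL(2, ℤ)) 0 0 : ℤ) : ZMod p) = 0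
      · exact ⟨none, (hw h m hm).mpr ha⟩
      · refine ⟨some ((m : ZMod p) * (((h : SL(2, ℤ)) 0 0 : ℤ) : ZMod p)⁻¹),
          (mk_lowerMat_eq_iff hN _ h hm).mpr ?_⟩
        rw [Int.cast_natCast, ZMod.natCast_zmod_val, mul_assoc, inv_mul_cancel₀ ha, mul_one]
  refine (Nat.card_congr (Equiv.ofBijective F hF)).symm.trans ?_
  rw [Nat.card_eq_fintype_card, Fintype.card_option, ZMod.card]

end step

lemma squarefree_dvd_of_dvd_mul {N p d : ℕ} (hp : p.Prime) (hd : Squarefree d) (h : d ∣ N * p)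
    (hpd : p ∣ N ∨ ¬ p ∣ d) : d ∣ N := by
  by_cases hdp : p ∣ d
  · have hpN : p ∣ N := hpd.resolve_right (not_not_intro hdp)
    obtain ⟨d', rfl⟩ := hdp
    have hc : Nat.Coprime p d' := Nat.coprime_of_squarefree_mul hd
    have : d' ∣ N := by
      have h' : d' ∣ N * p := (dvd_mul_left d' p).trans h
      exact hc.symm.dvd_of_dvd_mul_right h'
    exact hc.mul_dvd_of_dvd_of_dvd hpN this
  · exact ((hp.coprime_iff_not_dvd.mpr hdp).symm).dvd_of_dvd_mul_right h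

theorem dedekindPsi_mul_prime {N p : ℕ} (hN : N ≠ 0) (hp : p.Prime) :
    dedekindPsi (N * p) = (if p ∣ N then p else p + 1) * dedekindPsi N := by
  have hNp : N * p ≠ 0 := mul_ne_zero hN hp.ne_zero
  unfold ModularCurve.dedekindPsi
  by_cases hpN : p ∣ N
  · rw [if_pos hpN, Finset.mul_sum]
    have hset : {d ∈ (N * p).divisors | Squarefree d} = {d ∈ N.divisors | Squarefree d} := by
      ext d
      simp only [Finset.mem_filter, Nat.mem_divisors]
      constructor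
      · rintro ⟨⟨h, -⟩, hd⟩
        exact ⟨⟨squarefree_dvd_of_dvd_mul hp hd h (Or.inl hpN), hN⟩, hd⟩
      · rintro ⟨⟨h, -⟩, hd⟩
        exact ⟨⟨h.trans (dvd_mul_right N p), hNp⟩, hd⟩
    rw [hset]
    refine Finset.sum_congr rfl fun d hd => ?_
    rw [Finset.mem_filter, Nat.mem_divisors] at hd
    rw [Nat.mul_comm N p, Nat.mul_div_assoc p hd.1.1]
  · rw [if_neg hpN, add_mul, one_mul, Finset.mul_sum,
      ← Finset.sum_filter_add_sum_filter_not {d ∈ (N * p).divisors | Squarefree d} (fun d => ¬ p ∣ d)]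
    congr 1
    · have hset : {d ∈ {d ∈ (N * p).divisors | Squarefree d} | ¬ p ∣ d}
          = {d ∈ N.divisors | Squarefree d} := by
        ext d
        simp only [Finset.mem_filter, Nat.mem_divisors]
        constructor
        · rintro ⟨⟨⟨h, -⟩, hd⟩, hpd⟩
          exact ⟨⟨squarefree_dvd_of_dvd_mul hp hd h (Or.inr hpd), hN⟩, hd⟩
        · rintro ⟨⟨h, -⟩, hd⟩
          exact ⟨⟨⟨h.trans (dvd_mul_right N p), hNp⟩, hd⟩, fun hpd => hpN (hpd.trans h)⟩
      rw [hset]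
      refine Finset.sum_congr rfl fun d hd => ?_
      rw [Finset.mem_filter, Nat.mem_divisors] at hd
      rw [Nat.mul_comm N p, Nat.mul_div_assoc p hd.1.1]
    · refine (Finset.sum_nbij (fun d => d * p) ?_ ?_ ?_ ?_).symm
      · intro d hd
        simp only [Finset.mem_filter, Nat.mem_divisors] at hd ⊢
        have hpd : ¬ p ∣ d := fun h => hpN (h.trans hd.1.1)
        refine ⟨⟨⟨Nat.mul_dvd_mul_right hd.1.1 p, hNp⟩, ?_⟩, not_not_intro (dvd_mul_left p d)⟩
        exact (Nat.squarefree_mul ((hp.coprime_iff_not_dvd.mpr hpd).symm)).mpr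
          ⟨hd.2, hp.squarefree⟩
      · intro a _ b _ h
        exact mul_right_cancel₀ hp.ne_zero h
      · intro d hd
        simp only [Finset.coe_filter, Set.mem_ofPred_eq, Finset.mem_filter, Nat.mem_divisors,
          not_not] at hd
        obtain ⟨⟨⟨h, -⟩, hsq⟩, ⟨d', rfl⟩⟩ := hd
        refine ⟨d', ?_, mul_comm _ _⟩
        simp only [Finset.coe_filter, Set.mem_ofPred_eq, Nat.mem_divisors]
        rw [mul_comm p d'] at h
        exact ⟨⟨Nat.dvd_of_mul_dvd_mul_right hp.pos h, hN⟩,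
          (Squarefree.of_mul_right hsq)⟩
      · intro d _
        exact (Nat.mul_div_mul_right N d hp.pos).symm

theorem index_Gamma0 (N : ℕ) [NeZero N] : (Gamma0 N).index = dedekindPsi N := by
  have hN := NeZero.ne N
  clear ‹NeZero N›
  induction N using Nat.strong_induction_on with
  | h n ih =>
    rcases eq_or_ne n 1 with rfl | hn1
    · have : Gamma0 1 = ⊤ := by
        ext g; simp [Gamma0_mem, Subsingleton.elim ((g 1 0 : ℤ) : ZMod 1) 0]
      rw [this, Subgroup.index_top, ModularCurve.dedekindPsi_one]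
    · obtain ⟨p, hp, m, rfl⟩ : ∃ p, p.Prime ∧ ∃ m, n = m * p :=
        ⟨n.minFac, Nat.minFac_prime hn1, n / n.minFac,
          (Nat.div_mul_cancel (Nat.minFac_dvd n)).symm⟩
      have hm : m ≠ 0 := left_ne_zero_of_mul hN
      have hlt : m < m * p := lt_mul_of_one_lt_right (Nat.pos_of_ne_zero hm) hp.one_lt
      have h := Subgroup.relIndex_mul_index (Gamma0_le_of_dvd (dvd_mul_right m p))
      rw [ih m hlt hm] at h
      rw [← h, dedekindPsi_mul_prime hm hp]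
      by_cases hpm : p ∣ m
      · rw [relIndex_mul_of_dvd hm hp hpm, if_pos hpm]
      · rw [relIndex_mul_of_not_dvd hm hp hpm, if_neg hpm]

theorem card_cosetSpace (N : ℕ) [NeZero N] : Nat.card (CosetSpace N) = dedekindPsi N :=
  index_Gamma0 N

end Fermat.Agent.Gamma0Count
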