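import Mathlib.GroupTheory.GroupAction.Quotient
import Mathlib.RingTheory.Coprime.Lemmas
import Mathlib.Data.ZMod.Units
import Fermat.Agent.Gamma0Count.Basic

/-!
`T`-orbits on `SL(2,ℤ) ⧸ Γ₀(N)`: there are `cuspCount N` of them.
-/

set_option autoImplicit false

open CongruenceSubgroup Matrix
open scoped MatrixGroups

namespace Fermat.Agent.Gamma0Count

/-- The cusps: orbits of `T` on the coset space. -/
abbrev CuspSpace (N : ℕ) : Type :=
  MulAction.orbitRel.Quotient (Subgroup.zpowers ModularGroup.T) (CosetSpace N)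

variable {N : ℕ}

/-- The cusp of a coset. -/
def toCusp (x : CosetSpace N) : CuspSpace N := Quotient.mk'' x

lemma toCusp_eq_iff (x y : CosetSpace N) :
    toCusp x = toCusp y ↔ ∃ k : ℤ, ModularGroup.T ^ k • y = x := by
  rw [toCusp, toCusp, Quotient.eq'', MulAction.orbitRel_apply, MulAction.mem_orbit_iff]
  constructor
  · rintro ⟨⟨t, k, rfl⟩, h⟩
    exact ⟨k, h⟩
  · rintro ⟨k, h⟩
    exact ⟨⟨_, k, rfl⟩, h⟩

lemma toCusp_T_smul (x : CosetSpace N) : toCusp (ModularGroup.T • x) = toCusp x :=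
  (toCusp_eq_iff _ _).mpr ⟨1, by rw [zpow_one]⟩

lemma toCusp_surjective : Function.Surjective (toCusp (N := N)) := fun o =>
  Quotient.inductionOn' o fun x => ⟨x, rfl⟩

lemma T_zpow_mul_apply_zero_zero (k : ℤ) (g : SL(2, ℤ)) :
    (ModularGroup.T ^ k * g) 0 0 = g 0 0 + k * g 1 0 := by
  rw [Matrix.SpecialLinearGroup.coe_mul, ModularGroup.coe_T_zpow, Matrix.mul_apply,
    Fin.sum_univ_two]
  simp

lemma T_zpow_mul_apply_one_zero (k : ℤ) (g : SL(2, ℤ)) :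
    (ModularGroup.T ^ k * g) 1 0 = g 1 0 := by
  rw [Matrix.SpecialLinearGroup.coe_mul, ModularGroup.coe_T_zpow, Matrix.mul_apply,
    Fin.sum_univ_two]
  simp

lemma toCusp_mk_eq_iff (g h : SL(2, ℤ)) :
    toCusp (g : CosetSpace N) = toCusp (h : CosetSpace N) ↔
      ∃ k : ℤ, (N : ℤ) ∣ (h 0 0 + k * h 1 0) * g 1 0 - h 1 0 * g 0 0 := by
  simp only [toCusp_eq_iff, MulAction.Quotient.smul_coe, smul_eq_mul, coset_eq_iff,
    T_zpow_mul_apply_zero_zero, T_zpow_mul_apply_one_zero]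
  refine exists_congr fun k => ?_
  rw [← ZMod.intCast_zmod_eq_zero_iff_dvd]
  push_cast
  rw [sub_eq_zero]

/-- Parameters for the cusps: a divisor `δ` of `N` and a unit modulo `gcd (δ, N/δ)`. -/
abbrev CuspIndex (N : ℕ) : Type :=
  Σ δ : {d : ℕ // d ∈ N.divisors}, (ZMod (Nat.gcd δ.1 (N / δ.1)))ˣ

lemma gcd_pos_of_mem_divisors {d : ℕ} (hd : d ∈ N.divisors) : 0 < Nat.gcd d (N / d) :=
  Nat.gcd_pos_of_pos_left _ (Nat.pos_of_mem_divisors hd)

lemma exists_cuspMat (p : CuspIndex N) :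
    ∃ g : SL(2, ℤ), g 1 0 = (p.1.1 : ℤ) ∧
      ((g 0 0 : ℤ) : ZMod (Nat.gcd p.1.1 (N / p.1.1))) = p.2 := by
  obtain ⟨⟨δ, hδ⟩, u⟩ := p
  have : NeZero δ := ⟨(Nat.pos_of_mem_divisors hδ).ne'⟩
  obtain ⟨v, hv⟩ := ZMod.unitsMap_surjective (Nat.gcd_dvd_left δ (N / δ)) u
  obtain ⟨x, y, hxy⟩ := Nat.isCoprime_iff_coprime.mpr (ZMod.val_coe_unit_coprime v)
  refine ⟨⟨!![((v : ZMod δ).val : ℤ), -y; (δ : ℤ), x], ?_⟩, rfl, ?_⟩
  · rw [Matrix.det_fin_two_of]
    linear_combination hxy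
  · rw [← hv, ZMod.unitsMap_def, Units.coe_map]
    show (((v : ZMod δ).val : ℤ) : ZMod (Nat.gcd δ (N / δ))) = _
    rw [Int.cast_natCast, ← ZMod.cast_eq_val]
    rfl

lemma card_cuspIndex (N : ℕ) [NeZero N] : Nat.card (CuspIndex N) = ModularCurve.cuspCount N := by
  classical
  have : ∀ δ : {d : ℕ // d ∈ N.divisors}, NeZero (Nat.gcd δ.1 (N / δ.1)) := fun δ =>
    ⟨(gcd_pos_of_mem_divisors δ.2).ne'⟩
  rw [Nat.card_eq_fintype_card, Fintype.card_sigma, ModularCurve.cuspCount,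
    ← Finset.sum_coe_sort N.divisors]
  exact Finset.sum_congr rfl fun δ _ => ZMod.card_units_eq_totient _

lemma isCoprime_col (g : SL(2, ℤ)) : IsCoprime (g 0 0) (g 1 0) := by
  have h := g.det_coe
  rw [Matrix.det_fin_two] at h
  exact ⟨g 1 1, -g 0 1, by linear_combination h⟩

theorem card_cuspSpace (N : ℕ) [NeZero N] :
    Nat.card (CuspSpace N) = ModularCurve.cuspCount N := by
  rw [← card_cuspIndex N]
  symm
  choose gmat hgc hga using exists_cuspMat (N := N)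
  refine Nat.card_congr (Equiv.ofBijective (fun p => toCusp (gmat p : CosetSpace N)) ⟨?_, ?_⟩)
  · intro p q h
    have hpc := hgc p; have hqc := hgc q; have hpa := hga p; have hqa := hga q
    obtain ⟨k, hk⟩ := (toCusp_mk_eq_iff _ _).mp h
    rw [hpc, hqc] at hk
    have hcp : IsCoprime (gmat p 0 0) (p.1.1 : ℤ) := hpc ▸ isCoprime_col (gmat p)
    have hcq : IsCoprime (gmat q 0 0) (q.1.1 : ℤ) := hqc ▸ isCoprime_col (gmat q)
    have hpN : (p.1.1 : ℤ) ∣ N := Int.natCast_dvd_natCast.mpr (Nat.dvd_of_mem_divisors p.1.2)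
    have hqN : (q.1.1 : ℤ) ∣ N := Int.natCast_dvd_natCast.mpr (Nat.dvd_of_mem_divisors q.1.2)
    have h1 : (q.1.1 : ℤ) ∣ gmat q 0 0 * p.1.1 := by
      have h2 := dvd_add (hqN.trans hk)
        (dvd_mul_right (q.1.1 : ℤ) (gmat p 0 0 - k * p.1.1))
      rw [show gmat q 0 0 * (p.1.1 : ℤ) = (gmat q 0 0 + k * q.1.1) * p.1.1 - q.1.1 * gmat p 0 0
          + q.1.1 * (gmat p 0 0 - k * p.1.1) by ring]
      exact h2
    have h2 : (p.1.1 : ℤ) ∣ gmat p 0 0 * q.1.1 := by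
      have h3 := dvd_sub (dvd_mul_right (p.1.1 : ℤ) (gmat q 0 0 + k * q.1.1)) (hpN.trans hk)
      rw [show gmat p 0 0 * (q.1.1 : ℤ) = p.1.1 * (gmat q 0 0 + k * q.1.1)
          - ((gmat q 0 0 + k * q.1.1) * p.1.1 - q.1.1 * gmat p 0 0) by ring]
      exact h3
    have heq : p.1.1 = q.1.1 :=
      Nat.dvd_antisymm (Int.natCast_dvd_natCast.mp (hcp.symm.dvd_of_dvd_mul_left h2))
        (Int.natCast_dvd_natCast.mp (hcq.symm.dvd_of_dvd_mul_left h1))
    obtain ⟨⟨δ, hδ⟩, u⟩ := p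
    obtain ⟨⟨δ', hδ'⟩, u'⟩ := q
    simp only at heq hk hpa hqa
    subst heq
    set a : ℤ := gmat ⟨⟨δ, hδ⟩, u⟩ 0 0
    set a' : ℤ := gmat ⟨⟨δ, hδ'⟩, u'⟩ 0 0
    have h3 : ((N / δ : ℕ) : ℤ) ∣ a' + k * δ - a := by
      have hN : (N : ℤ) = (N / δ : ℕ) * δ := by
        exact_mod_cast (Nat.div_mul_cancel (Nat.dvd_of_mem_divisors hδ)).symm
      rw [hN, show (a' + k * δ) * δ - (δ : ℤ) * a = (a' + k * δ - a) * δ by ring] at hk
      exact Int.dvd_of_mul_dvd_mul_right (by exact_mod_cast (Nat.pos_of_mem_divisors hδ).ne') hk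
    have h4 := (ZMod.intCast_zmod_eq_zero_iff_dvd _ (Nat.gcd δ (N / δ))).mpr
      ((Int.natCast_dvd_natCast.mpr (Nat.gcd_dvd_right δ (N / δ))).trans h3)
    push_cast at h4
    rw [(ZMod.natCast_eq_zero_iff δ _).mpr (Nat.gcd_dvd_left δ (N / δ)) |>.trans rfl] at h4
    simp only [mul_zero, add_zero, hpa, hqa, sub_eq_zero] at h4
    rw [Units.ext h4]
  · intro o
    obtain ⟨q, rfl⟩ := toCusp_surjective o
    obtain ⟨g, rfl⟩ := Quotient.exists_rep q
    set a : ℤ := g 0 0 with ha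
    set c : ℤ := g 1 0 with hc
    set δ : ℕ := Int.gcd c N with hδ_def
    have hδN : δ ∣ N := by exact_mod_cast Int.gcd_dvd_right c (N : ℤ)
    have hδ : δ ∈ N.divisors := Nat.mem_divisors.mpr ⟨hδN, NeZero.ne N⟩
    have hδ0 : (δ : ℤ) ≠ 0 := by exact_mod_cast (Nat.pos_of_mem_divisors hδ).ne'
    obtain ⟨e, he⟩ : (δ : ℤ) ∣ c := Int.gcd_dvd_left c (N : ℤ)
    set M : ℕ := N / δ with hM
    have hN : (N : ℤ) = δ * M := by
      exact_mod_cast (Nat.mul_div_cancel' hδN).symm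
    obtain ⟨x, y, hxy⟩ : ∃ x y : ℤ, x * e + y * M = 1 := by
      refine ⟨Int.gcdA c N, Int.gcdB c N, mul_left_cancel₀ hδ0 ?_⟩
      have := Int.gcd_eq_gcd_ab c (N : ℤ)
      rw [← hδ_def] at this
      linear_combination -this - Int.gcdA c N * he - Int.gcdB c N * hN
    set G : ℕ := Nat.gcd δ M with hG
    have hGM : (M : ZMod G) = 0 := (ZMod.natCast_eq_zero_iff _ _).mpr (Nat.gcd_dvd_right _ _)
    have hGδ : (δ : ZMod G) = 0 := (ZMod.natCast_eq_zero_iff _ _).mpr (Nat.gcd_dvd_left _ _)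
    have hex : (x : ZMod G) * e = 1 := by
      have := congrArg (Int.cast : ℤ → ZMod G) hxy
      push_cast at this
      rw [hGM, mul_zero, add_zero] at this
      exact this
    have had : (a : ZMod G) * (g 1 1 : ℤ) = 1 := by
      have h1 : a * g 1 1 - g 0 1 * c = 1 := by
        have h := g.det_coe
        rw [Matrix.det_fin_two] at h
        exact h
      have := congrArg (Int.cast : ℤ → ZMod G) h1
      rw [he] at this
      push_cast at this
      rw [hGδ, zero_mul, mul_zero, sub_zero] at this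
      exact this
    let u : (ZMod G)ˣ := ⟨(a : ZMod G) * x, (g 1 1 : ℤ) * e,
      by linear_combination (x : ZMod G) * e * had + hex,
      by linear_combination (x : ZMod G) * e * had + hex⟩
    refine ⟨⟨⟨δ, hδ⟩, u⟩, ?_⟩
    have hc0 := hgc ⟨⟨δ, hδ⟩, u⟩
    have ha0 := hga ⟨⟨δ, hδ⟩, u⟩
    set a₀ : ℤ := gmat ⟨⟨δ, hδ⟩, u⟩ 0 0
    obtain ⟨m, hm⟩ : (G : ℤ) ∣ a₀ * e - a := by
      rw [← ZMod.intCast_zmod_eq_zero_iff_dvd]
      push_cast
      rw [ha0]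
      show (a : ZMod G) * x * e - a = 0
      linear_combination (a : ZMod G) * hex
    have hgab := Nat.gcd_eq_gcd_ab δ M
    rw [← hG] at hgab
    refine ((toCusp_mk_eq_iff _ _).mpr ⟨-(Nat.gcdA δ M * m * x), ?_⟩).symm
    rw [hc0, ← ha, ← hc, hN]
    refine ⟨Nat.gcdB δ M * m + Nat.gcdA δ M * m * δ * y, ?_⟩
    rw [he]
    linear_combination (δ : ℤ) * hm + (δ : ℤ) * m * hgab
      - (δ : ℤ) * δ * Nat.gcdA δ M * m * hxy

end Fermat.Agent.Gamma0Count
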